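import Mathlib
import Fermat.Prelude.Thm_Algebra_finite_maximalSpectrum_and_bijective_localization_of_module_finite

/-!
# S59 / cell TW, layer 3, leaf IDEM: the abstract core (helper511)

`𝒪` a complete Noetherian local ring, `B` a commutative `𝒪`-algebra, finite as an `𝒪`-module,
`I` an ideal of `B`.  There is an idempotent `e ∈ B` with `e ∈ 𝔫 ↔ ¬ I ≤ 𝔫` for every maximal
ideal `𝔫` (`exists_idem`); then `I + (e) = B` and every `g e`, `g ∈ I`, has a power in `𝔪_𝒪 B`.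

For a `B`-module structure `ρ : B →ₐ[𝒪] End_𝒪 X` (`core`): `e X` is the localisation of `X` at `I`.
-/

set_option autoImplicit false

namespace Fermat.Agent.S59.TW.Aut.H511

open IsLocalRing

section Ring

/-- The idempotent cutting out the maximal ideals containing `I`. -/
theorem exists_idem (𝒪 : Type) [CommRing 𝒪] [IsLocalRing 𝒪] [IsNoetherianRing 𝒪]
    [IsAdicComplete (maximalIdeal 𝒪) 𝒪]
    (B : Type) [CommRing B] [Algebra 𝒪 B] [Module.Finite 𝒪 B] (I : Ideal B) :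
    ∃ e : B, e * e = e ∧ ∀ 𝔫 : Ideal B, 𝔫.IsMaximal → (e ∈ 𝔫 ↔ ¬ I ≤ 𝔫) := by
  classical
  obtain ⟨-, hbij, -, -⟩ :=
    Algebra.finite_maximalSpectrum_and_bijective_localization_of_module_finite (𝒪 := 𝒪) B
  set v : ∀ 𝔫 : MaximalSpectrum B, Localization.AtPrime 𝔫.asIdeal :=
    fun 𝔫 => if I ≤ 𝔫.asIdeal then 1 else 0 with hv
  obtain ⟨e, he⟩ := hbij.2 v
  refine ⟨e, ?_, ?_⟩
  · apply hbij.1
    rw [map_mul, he]
    funext 𝔫
    simp only [Pi.mul_apply, hv]
    split_ifs <;> simp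
  · intro 𝔫 h𝔫
    have h1 : algebraMap B (Localization.AtPrime 𝔫) e =
        if I ≤ 𝔫 then 1 else 0 := congrFun he ⟨𝔫, h𝔫⟩
    have h2 := IsLocalization.AtPrime.to_map_mem_maximal_iff (Localization.AtPrime 𝔫) 𝔫 e
    rw [← h2, h1]
    by_cases hI : I ≤ 𝔫
    · rw [if_pos hI]
      constructor
      · intro h
        exact absurd h (by
          intro h'
          exact (IsLocalRing.maximalIdeal.isMaximal _).ne_top
            ((Ideal.eq_top_iff_one _).mpr h'))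
      · intro h
        exact absurd hI h
    · rw [if_neg hI]
      exact ⟨fun _ => hI, fun _ => Ideal.zero_mem _⟩

variable {B : Type} [CommRing B]

theorem sup_span_idem_eq_top {I : Ideal B} {e : B}
    (he : ∀ 𝔫 : Ideal B, 𝔫.IsMaximal → (e ∈ 𝔫 ↔ ¬ I ≤ 𝔫)) : I ⊔ Ideal.span {e} = ⊤ := by
  by_contra h
  obtain ⟨𝔫, h𝔫, hle⟩ := Ideal.exists_le_maximal _ h
  have h1 : I ≤ 𝔫 := le_sup_left.trans hle
  have h2 : e ∈ 𝔫 := hle (Ideal.mem_sup_right (Ideal.subset_span rfl))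
  exact (he 𝔫 h𝔫).mp h2 h1

theorem mul_idem_mem_of_isMaximal {I : Ideal B} {e : B}
    (he : ∀ 𝔫 : Ideal B, 𝔫.IsMaximal → (e ∈ 𝔫 ↔ ¬ I ≤ 𝔫)) {g : B} (hg : g ∈ I)
    (𝔫 : Ideal B) (h𝔫 : 𝔫.IsMaximal) : g * e ∈ 𝔫 := by
  by_cases hI : I ≤ 𝔫
  · exact Ideal.mul_mem_right _ _ (hI hg)
  · exact Ideal.mul_mem_left _ _ ((he 𝔫 h𝔫).mpr hI)

/-- An element of all maximal ideals of `B` has a power in `𝔪_𝒪 B`. -/
theorem exists_pow_mem_map (𝒪 : Type) [CommRing 𝒪] [IsLocalRing 𝒪] [Algebra 𝒪 B]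
    [Module.Finite 𝒪 B] {b : B} (hb : ∀ 𝔫 : Ideal B, 𝔫.IsMaximal → b ∈ 𝔫) :
    ∃ m : ℕ, b ^ m ∈ (maximalIdeal 𝒪).map (algebraMap 𝒪 B) := by
  have h1 : b ∈ ((maximalIdeal 𝒪).map (algebraMap 𝒪 B)).radical := by
    rw [Ideal.radical_eq_sInf, Ideal.mem_sInf]
    rintro 𝔭 ⟨h𝔭le, h𝔭⟩
    have := h𝔭
    have hint : Algebra.IsIntegral 𝒪 B := inferInstance
    have hcomap : (𝔭.comap (algebraMap 𝒪 B)).IsMaximal := by
      have h2 : maximalIdeal 𝒪 ≤ 𝔭.comap (algebraMap 𝒪 B) :=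
        Ideal.map_le_iff_le_comap.mp h𝔭le
      have h3 : 𝔭.comap (algebraMap 𝒪 B) ≠ ⊤ := (Ideal.comap_isPrime _ 𝔭).ne_top
      have h4 := (IsLocalRing.maximalIdeal.isMaximal 𝒪).eq_of_le h3 h2
      rw [← h4]
      exact IsLocalRing.maximalIdeal.isMaximal 𝒪
    exact hb 𝔭 (Ideal.isMaximal_of_isIntegral_of_isMaximal_comap 𝔭 hcomap)
  exact h1

end Ring

section Module

variable {𝒪 : Type} [CommRing 𝒪] [IsLocalRing 𝒪] [IsNoetherianRing 𝒪]
  [IsAdicComplete (maximalIdeal 𝒪) 𝒪]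
  {B : Type} [CommRing B] [Algebra 𝒪 B] [Module.Finite 𝒪 B]
  {X : Type} [AddCommGroup X] [Module 𝒪 X]

omit [IsNoetherianRing 𝒪] [IsAdicComplete (maximalIdeal 𝒪) 𝒪] [Module.Finite 𝒪 B] in
theorem map_apply_mem (ρ : B →ₐ[𝒪] Module.End 𝒪 X) {β : B}
    (hβ : β ∈ (maximalIdeal 𝒪).map (algebraMap 𝒪 B)) (x : X) :
    ρ β x ∈ maximalIdeal 𝒪 • (⊤ : Submodule 𝒪 X) := by
  unfold Ideal.map at hβ
  induction hβ using Submodule.span_induction with
  | mem y hy =>
    obtain ⟨c, hc, rfl⟩ := hy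
    rw [AlgHom.commutes]
    exact Submodule.smul_mem_smul hc Submodule.mem_top
  | zero =>
    rw [map_zero]
    exact Submodule.zero_mem _
  | add y z _ _ hy hz =>
    rw [map_add]
    exact Submodule.add_mem _ hy hz
  | smul a y _ hy =>
    rw [smul_eq_mul, map_mul, Module.End.mul_apply]
    -- `ρ a` preserves `𝔪 X`
    have key : ∀ z ∈ maximalIdeal 𝒪 • (⊤ : Submodule 𝒪 X),
        ρ a z ∈ maximalIdeal 𝒪 • (⊤ : Submodule 𝒪 X) := by
      intro z hz
      refine Submodule.smul_induction_on hz ?_ ?_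
      · intro c hc w _
        rw [map_smul]
        exact Submodule.smul_mem_smul hc Submodule.mem_top
      · intro w w' hw hw'
        rw [map_add]
        exact Submodule.add_mem _ hw hw'
    exact key _ hy

omit [IsNoetherianRing 𝒪] [IsAdicComplete (maximalIdeal 𝒪) 𝒪] [Module.Finite 𝒪 B] in
theorem apply_mem_of_mem (f : Module.End 𝒪 X) {z : X}
    (hz : z ∈ maximalIdeal 𝒪 • (⊤ : Submodule 𝒪 X)) :
    f z ∈ maximalIdeal 𝒪 • (⊤ : Submodule 𝒪 X) := by
  refine Submodule.smul_induction_on hz ?_ ?_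
  · intro c hc w _
    rw [map_smul]
    exact Submodule.smul_mem_smul hc Submodule.mem_top
  · intro w w' hw hw'
    rw [map_add]
    exact Submodule.add_mem _ hw hw'

/-- **The core of IDEM.**  For a module structure `ρ` of a finite commutative `𝒪`-algebra `B`
on `X` and a set `gens ⊆ B`: an idempotent `e ∈ B` such that every `g ∈ gens` is nilpotent on
`e X` modulo `𝔪_𝒪` and `ker e` contains no common eigenvector of `gens` modulo `𝔪_𝒪`. -/
theorem core (ρ : B →ₐ[𝒪] Module.End 𝒪 X) (gens : Set B) :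
    ∃ e : B, e * e = e ∧
      (∀ g ∈ gens, ∃ m : ℕ, ∀ x : X, ρ e x = x →
        (ρ g ^ m) x ∈ maximalIdeal 𝒪 • (⊤ : Submodule 𝒪 X)) ∧
      ∀ x : X, ρ e x = 0 →
        (∀ g ∈ gens, ρ g x ∈ maximalIdeal 𝒪 • (⊤ : Submodule 𝒪 X)) →
        x ∈ maximalIdeal 𝒪 • (⊤ : Submodule 𝒪 X) := by
  set I : Ideal B := Ideal.span gens ⊔ (maximalIdeal 𝒪).map (algebraMap 𝒪 B) with hI
  obtain ⟨e, hee, he⟩ := exists_idem 𝒪 B I
  refine ⟨e, hee, ?_, ?_⟩
  · intro g hg
    have hgI : g ∈ I := Ideal.mem_sup_left (Ideal.subset_span hg)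
    obtain ⟨m, hm⟩ := exists_pow_mem_map 𝒪 (b := g * e)
      (fun 𝔫 h𝔫 => mul_idem_mem_of_isMaximal he hgI 𝔫 h𝔫)
    refine ⟨m, fun x hx => ?_⟩
    have hek : ∀ k : ℕ, (ρ e ^ k) x = x := by
      intro k
      induction k with
      | zero => rfl
      | succ k ih => rw [pow_succ, Module.End.mul_apply, hx, ih]
    have hpow : ∀ k : ℕ, (ρ (g * e) ^ k) x = (ρ g ^ k) x := by
      intro k
      rw [← map_pow, mul_pow, map_mul, Module.End.mul_apply, map_pow, map_pow, hek]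
    rw [← hpow m, ← map_pow]
    exact map_apply_mem ρ hm x
  · intro x hx hgens
    have htop := sup_span_idem_eq_top he
    have h1 : (1 : B) ∈ I ⊔ Ideal.span {e} := by
      rw [htop]
      trivial
    obtain ⟨i, hi, b, hb, hib⟩ := Submodule.mem_sup.mp h1
    obtain ⟨c, rfl⟩ := Ideal.mem_span_singleton'.mp hb
    have h2 : x = ρ i x := by
      have h3 : ρ (i + c * e) x = x := by
        rw [hib, map_one]
        rfl
      rw [map_add, LinearMap.add_apply, map_mul, Module.End.mul_apply, hx, map_zero,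
        add_zero] at h3
      exact h3.symm
    rw [h2]
    -- `ρ i x ∈ 𝔪 X` for `i ∈ I`
    have key : ∀ y ∈ Ideal.span gens, ρ y x ∈ maximalIdeal 𝒪 • (⊤ : Submodule 𝒪 X) := by
      intro y hy
      induction hy using Submodule.span_induction with
      | mem g hg => exact hgens g hg
      | zero =>
        rw [map_zero]
        exact Submodule.zero_mem _
      | add y z _ _ hy hz =>
        rw [map_add]
        exact Submodule.add_mem _ hy hz
      | smul a y _ hy =>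
        rw [smul_eq_mul, map_mul, Module.End.mul_apply]
        exact apply_mem_of_mem (ρ a) hy
    obtain ⟨i₁, hi₁, i₂, hi₂, rfl⟩ := Submodule.mem_sup.mp hi
    rw [map_add, LinearMap.add_apply]
    exact Submodule.add_mem _ (key i₁ hi₁) (map_apply_mem ρ hi₂ x)

end Module

section Comm

open scoped IsMulCommutative

variable {𝒪 : Type} [CommRing 𝒪] [IsLocalRing 𝒪] [IsNoetherianRing 𝒪]
  [IsAdicComplete (maximalIdeal 𝒪) 𝒪]
  {X : Type} [AddCommGroup X] [Module 𝒪 X] [Module.Finite 𝒪 X] [Module.Free 𝒪 X]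

/-- **IDEM for a commuting family of operators** on a finite free module `X` over a complete
Noetherian local ring: for `gens` in the algebra generated by the commuting family `S`, an
idempotent operator `e` commuting with `S`, such that the elements of `gens` are nilpotent on
`e X` modulo `𝔪_𝒪` and `ker e` contains no common eigenvector of `gens` modulo `𝔪_𝒪`. -/
theorem idem_of_comm (S : Set (Module.End 𝒪 X))
    (hcomm : ∀ a ∈ S, ∀ b ∈ S, a * b = b * a) (gens : Set (Module.End 𝒪 X))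
    (hgens : gens ⊆ Algebra.adjoin 𝒪 S) :
    ∃ e : Module.End 𝒪 X, e * e = e ∧ (∀ s ∈ S, e * s = s * e) ∧
      (∀ g ∈ gens, ∃ m : ℕ, ∀ x : X, e x = x →
        (g ^ m) x ∈ maximalIdeal 𝒪 • (⊤ : Submodule 𝒪 X)) ∧
      ∀ x : X, e x = 0 →
        (∀ g ∈ gens, g x ∈ maximalIdeal 𝒪 • (⊤ : Submodule 𝒪 X)) →
        x ∈ maximalIdeal 𝒪 • (⊤ : Submodule 𝒪 X) := by
  have hmc : IsMulCommutative (Algebra.adjoin 𝒪 S) := Algebra.isMulCommutative_adjoin 𝒪 hcomm
  have hfin : Module.Finite 𝒪 (Algebra.adjoin 𝒪 S) :=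
    Module.Finite.of_injective (Algebra.adjoin 𝒪 S).val.toLinearMap Subtype.val_injective
  obtain ⟨e, hee, h1, h2⟩ := core (𝒪 := 𝒪) (B := Algebra.adjoin 𝒪 S) (X := X)
    (Algebra.adjoin 𝒪 S).val {b | (b : Module.End 𝒪 X) ∈ gens}
  refine ⟨(e : Module.End 𝒪 X), ?_, ?_, ?_, ?_⟩
  · exact congrArg Subtype.val hee
  · intro s hs
    have := mul_comm e ⟨s, Algebra.subset_adjoin hs⟩
    exact congrArg Subtype.val this
  · intro g hg
    exact h1 ⟨g, hgens hg⟩ hg
  · intro x hx hx'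
    exact h2 x hx fun b hb => hx' _ hb

end Comm

end Fermat.Agent.S59.TW.Aut.H511
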