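import Fermat.Agent.S59.TW.Aut.Spec
import Fermat.Agent.S59.TW.Aut.H511.IdemCore
import Fermat.Agent.S59.TW.H653.Comm.Main
import Fermat.Agent.S59.MFree.H761.FreeAbs

/-!
# S59 / cell TW, layer 3, leaf IDEM (helper511): `idem : Aut.IdemStatement`

The localisation of `X_K(𝒪) = Hom(K, 𝒪)` at a maximal ideal of the Hecke algebra exists, for
every `K` between `Γ₁(M)` and `Γ₀(M)`: `IdemCore.idem_of_comm` applied to the commuting family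
of all `T_ℓ` (`ℓ ∤ M`), `U_q` (`q ∣ M`) and diamond operators (helper653, `TW/H653`).
-/

set_option autoImplicit false

open Polynomial IsLocalRing CongruenceSubgroup
open scoped MatrixGroups

namespace Fermat.Agent.S59.TW.Aut.H511

open Fermat.Agent.S59.TW.H653 Fermat.Agent.S59.TW.Aut

section Lin

variable {M : ℕ} {K : Subgroup SL(2, ℤ)} (hK : IsMid M K) (𝒪 : Type) [CommRing 𝒪]

theorem smul_eq_comp (c : 𝒪) (φ : Additive K →+ 𝒪) :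
    c • φ = (AddMonoidHom.mulLeft c).comp φ := rfl

/-- `T_ℓ` as an `𝒪`-linear map. -/
noncomputable def TKl (ℓ : ℕ) [Fact ℓ.Prime] (hℓ : ¬ ℓ ∣ M) :
    Module.End 𝒪 (Additive K →+ 𝒪) where
  toFun := TK M K ℓ
  map_add' := TK_add hK hℓ
  map_smul' c φ := by
    rw [RingHom.id_apply, smul_eq_comp, smul_eq_comp]
    exact TK_comp hK hℓ _ φ

/-- `U_q` as an `𝒪`-linear map. -/
noncomputable def UKl (q : ℕ) [Fact q.Prime] (hq : q ∣ M) :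
    Module.End 𝒪 (Additive K →+ 𝒪) where
  toFun := UK K q
  map_add' := UK_add hK hq
  map_smul' c φ := by
    rw [RingHom.id_apply, smul_eq_comp, smul_eq_comp]
    exact UK_comp hK hq _ φ

/-- The diamond operator as an `𝒪`-linear map. -/
noncomputable def Dl (u : (ZMod M)ˣ) : Module.End 𝒪 (Additive K →+ 𝒪) where
  toFun := diamondU hK u
  map_add' := diamondU_add hK u
  map_smul' _ _ := rfl

@[simp] theorem TKl_apply (ℓ : ℕ) [Fact ℓ.Prime] (hℓ : ¬ ℓ ∣ M) (φ : Additive K →+ 𝒪) :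
    TKl hK 𝒪 ℓ hℓ φ = TK M K ℓ φ := rfl

@[simp] theorem UKl_apply (q : ℕ) [Fact q.Prime] (hq : q ∣ M) (φ : Additive K →+ 𝒪) :
    UKl hK 𝒪 q hq φ = UK K q φ := rfl

@[simp] theorem Dl_apply (u : (ZMod M)ˣ) (φ : Additive K →+ 𝒪) :
    Dl hK 𝒪 u φ = diamondU hK u φ := rfl

/-- The family of all Hecke and diamond operators. -/
def opSet : Set (Module.End 𝒪 (Additive K →+ 𝒪)) :=
  {f | (∃ (ℓ : ℕ) (_ : Fact ℓ.Prime) (hℓ : ¬ ℓ ∣ M), f = TKl hK 𝒪 ℓ hℓ) ∨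
    (∃ (q : ℕ) (_ : Fact q.Prime) (hq : q ∣ M), f = UKl hK 𝒪 q hq) ∨
    ∃ u : (ZMod M)ˣ, f = Dl hK 𝒪 u}

theorem opSet_comm [NeZero M] : ∀ a ∈ opSet hK 𝒪, ∀ b ∈ opSet hK 𝒪, a * b = b * a := by
  rintro a (⟨ℓ, _, hℓ, rfl⟩ | ⟨q, _, hq, rfl⟩ | ⟨u, rfl⟩)
    b (⟨ℓ', _, hℓ', rfl⟩ | ⟨q', _, hq', rfl⟩ | ⟨u', rfl⟩) <;>
    refine LinearMap.ext fun φ => ?_
  · exact TK_comm hK hℓ' hℓ φ
  · exact (TK_UK_comm hK hℓ hq' φ).symm
  · exact diamondU_TK hK hℓ u' φ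
  · exact TK_UK_comm hK hℓ' hq φ
  · exact UK_comm hK hq' hq φ
  · exact diamondU_UK hK hq u' φ
  · exact (diamondU_TK hK hℓ' u φ).symm
  · exact (diamondU_UK hK hq' u φ).symm
  · show diamondU hK u (diamondU hK u' φ) = diamondU hK u' (diamondU hK u φ)
    rw [← diamondU_mul, ← diamondU_mul, mul_comm]

end Lin

/-- **Leaf IDEM.** -/
theorem idem : IdemStatement := by
  intro 𝒪 _ _ _ _ M hM K hK Tset Uset hT hU
  have : NeZero M := ⟨hM⟩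
  have : K.FiniteIndex := Subgroup.finiteIndex_of_le hK.ge
  -- `X_K(𝒪)` is finite free
  obtain ⟨hfin, hfree⟩ :=
    Fermat.Agent.S59.MFree.H761.finite_free_submodule (O := 𝒪) K ⊤
  have : Module.Finite 𝒪 (Additive K →+ 𝒪) :=
    Module.Finite.equiv (Submodule.topEquiv (R := 𝒪) (M := Additive K →+ 𝒪))
  have : Module.Free 𝒪 (Additive K →+ 𝒪) :=
    Module.Free.of_equiv (Submodule.topEquiv (R := 𝒪) (M := Additive K →+ 𝒪))
  -- the generators of the maximal ideal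
  set gens : Set (Module.End 𝒪 (Additive K →+ 𝒪)) :=
    {g | (∃ (ℓ : ℕ) (c : 𝒪) (_ : Fact ℓ.Prime) (hℓ : ¬ ℓ ∣ M), (ℓ, c) ∈ Tset ∧
        g = TKl hK 𝒪 ℓ hℓ - c • 1) ∨
      ∃ (q : ℕ) (α : 𝒪) (_ : Fact q.Prime) (hq : q ∣ M), (q, α) ∈ Uset ∧
        g = UKl hK 𝒪 q hq - α • 1} with hgens
  have hsub : gens ⊆ Algebra.adjoin 𝒪 (opSet hK 𝒪) := by
    rintro g (⟨ℓ, c, _, hℓ, -, rfl⟩ | ⟨q, α, _, hq, -, rfl⟩)
    · have h1 : TKl hK 𝒪 ℓ hℓ ∈ Algebra.adjoin 𝒪 (opSet hK 𝒪) :=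
        Algebra.subset_adjoin (Or.inl ⟨ℓ, ‹_›, hℓ, rfl⟩)
      have h2 : (c • 1 : Module.End 𝒪 (Additive K →+ 𝒪)) ∈ Algebra.adjoin 𝒪 (opSet hK 𝒪) :=
        Subalgebra.smul_mem _ (one_mem _) c
      exact Subalgebra.sub_mem (Algebra.adjoin 𝒪 (opSet hK 𝒪)) h1 h2
    · have h1 : UKl hK 𝒪 q hq ∈ Algebra.adjoin 𝒪 (opSet hK 𝒪) :=
        Algebra.subset_adjoin (Or.inr (Or.inl ⟨q, ‹_›, hq, rfl⟩))
      have h2 : (α • 1 : Module.End 𝒪 (Additive K →+ 𝒪)) ∈ Algebra.adjoin 𝒪 (opSet hK 𝒪) :=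
        Subalgebra.smul_mem _ (one_mem _) α
      exact Subalgebra.sub_mem (Algebra.adjoin 𝒪 (opSet hK 𝒪)) h1 h2
  obtain ⟨e, hee, hcomm, hnil, hfull⟩ :=
    idem_of_comm (𝒪 := 𝒪) (opSet hK 𝒪) (opSet_comm hK 𝒪) gens hsub
  have hee' : ∀ x, e (e x) = e x := fun x => congrArg (fun f : Module.End 𝒪 _ => f x) hee
  have hrange : ∀ x, x ∈ LinearMap.range e ↔ e x = x := by
    intro x
    constructor
    · rintro ⟨y, rfl⟩
      exact hee' y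
    · intro h
      exact ⟨x, h⟩
  have hiter : ∀ (f : Module.End 𝒪 (Additive K →+ 𝒪)) (m : ℕ) (x : Additive K →+ 𝒪),
      (f ^ m) x = (fun y => f y)^[m] x := by
    intro f m x
    rw [Module.End.pow_apply]
  refine ⟨LinearMap.range e, ⟨⟨e, hee', fun x => ⟨x, rfl⟩, fun x hx => (hrange x).mp hx,
    ?_, ?_, ?_, ?_⟩, ?_, ?_⟩⟩
  · intro ℓ hℓF hℓ x
    exact LinearMap.congr_fun (hcomm (TKl hK 𝒪 ℓ hℓ) (Or.inl ⟨ℓ, hℓF, hℓ, rfl⟩)) x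
  · intro q hqF hq x
    exact LinearMap.congr_fun (hcomm (UKl hK 𝒪 q hq) (Or.inr (Or.inl ⟨q, hqF, hq, rfl⟩))) x
  · intro u x
    exact LinearMap.congr_fun (hcomm (Dl hK 𝒪 u) (Or.inr (Or.inr ⟨u, rfl⟩))) x
  · intro x hx h1 h2
    refine hfull x hx ?_
    rintro g (⟨ℓ, c, _, hℓ, hmem, rfl⟩ | ⟨q, α, _, hq, hmem, rfl⟩)
    · exact h1 ℓ c hmem
    · exact h2 q α hmem
  · intro ℓ hℓF c hmem
    have hℓ : ¬ ℓ ∣ M := (hT _ hmem).2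
    obtain ⟨m, hm⟩ := hnil (TKl hK 𝒪 ℓ hℓ - c • 1) (Or.inl ⟨ℓ, c, hℓF, hℓ, hmem, rfl⟩)
    refine ⟨m, fun x hx => ?_⟩
    have := hm x ((hrange x).mp hx)
    rw [hiter] at this
    exact this
  · intro q hqF α hmem
    have hq : q ∣ M := (hU _ hmem).2
    obtain ⟨m, hm⟩ := hnil (UKl hK 𝒪 q hq - α • 1)
      (Or.inr ⟨q, α, hqF, hq, hmem, rfl⟩)
    refine ⟨m, fun x hx => ?_⟩
    have := hm x ((hrange x).mp hx)
    rw [hiter] at this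
    exact this

end Fermat.Agent.S59.TW.Aut.H511
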