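import Fermat.Agent.S59.TW.Aut.H31.AuxPrime
import Fermat.Agent.S59.TW.H324.CuspLocPart
import Fermat.Agent.S59.TW.Aut.H709.Mod0Glue
import Fermat.Agent.S59.TW.Aut.H959.CuspMin

/-!
# Row S59, cell TW, layer 3 (AUT): the leaves CUSP-MIN and MOD0 (assembler helper511)

Glue of pieces on main:

* `H31.exists_auxPrime_h31` (helper31): a non-Eisenstein prime `ℓ ≡ 1` modulo the level in the
  eigen-system of a package;
* `H324.isLocPart_cuspidal'` (helper324): a localisation `IsLocPart` at an eigen-system containing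
  such a pair consists of cuspidal classes;
* `H709.mod0_of_cusp` (helper709): MOD0 from CUSP.

Results:

* `locPart_cuspidalK` : every localisation at an eigen-system containing the one of a package is
  cuspidal (all levels `K`);
* `cuspMin : H959.CuspMinStatement`, `mod0Cusp : H709.Mod0CuspStatement`;
* `mod0 : Aut.Mod0Statement` — the leaf MOD0 of layer 3 is CLOSED;
* `qPart_cuspidalK`, `qPart_parabolic` : the localisation `V` at the level `Q` is cuspidal
  (input `hpar` of `H658.exists_heckeAction_isQPart`, for MODQ).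
-/

set_option autoImplicit false

open Polynomial IsLocalRing CongruenceSubgroup
open scoped MatrixGroups

namespace Fermat.Agent.S59.TW.Aut.H511

open Fermat.Agent.S59.Arch Fermat.Agent.S59.TW.H959 Fermat.Agent.S59.TW.H653
open Fermat.Agent.S59.TW.Aut
open Fermat.Agent.S29.H642 Fermat.Agent.S41.Spec ModularCurve.Period

variable {p : ℕ} [Fact p.Prime]
  {𝒪 : Type} [CommRing 𝒪] [IsDomain 𝒪] [IsDiscreteValuationRing 𝒪]
  [IsAdicComplete (maximalIdeal 𝒪) 𝒪] [Finite (ResidueField 𝒪)] [CharZero 𝒪]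
  {ρbar : ResidualGaloisRep (ResidueField 𝒪)} {t : PType} {Smin : Finset ℕ}

/-- **CUSP, general form.**  A localisation of `X_K(𝒪)` at an eigen-system containing the one of
a Hecke package consists of cuspidal classes. -/
theorem locPart_cuspidalK (h : ResidualHyp p 𝒪 ρbar Smin) {Sig : Finset ℕ}
    [NeZero (wilesLevel p t Smin Sig)] (P : HeckePkg p 𝒪 ρbar t Smin Sig)
    {M : ℕ} (hM : M ≠ 0) {K : Subgroup SL(2, ℤ)} {hK : IsMid M K}
    {Tset Uset : Set (ℕ × 𝒪)} (hT : TsetOf P ⊆ Tset)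
    {V : Submodule 𝒪 (Additive K →+ 𝒪)} (hV : IsLocPart hK Tset Uset V) :
    ∀ v ∈ V, IsCuspidalK v := by
  have : NeZero M := ⟨hM⟩
  obtain ⟨ℓ, hℓF, c, hmem, hndvd, -, -, hℓM, -, hu, -, -⟩ :=
    H31.exists_auxPrime_h31 h P hM hT hV 1 Nat.one_pos ∅
  exact H324.isLocPart_cuspidal' hK hV hndvd hℓM (hT hmem) hu

/-- The localisation at the minimal level is cuspidal. -/
theorem minPart_cuspidalK (h : ResidualHyp p 𝒪 ρbar Smin)
    [NeZero (wilesLevel p t Smin Smin)] (P₀ : HeckePkg p 𝒪 ρbar t Smin Smin)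
    {V₀ : Submodule 𝒪 (Additive (Gamma0 (wilesLevel p t Smin Smin)) →+ 𝒪)}
    (hV : IsMinPart P₀ V₀) : ∀ v ∈ V₀, IsCuspidalK v :=
  locPart_cuspidalK h P₀ (NeZero.ne _) (le_refl _) hV

/-- The localisation at the level `Q` is cuspidal. -/
theorem qPart_cuspidalK (h : ResidualHyp p 𝒪 ρbar Smin) {r : ℕ} {qv : Fin r → ℕ}
    [NeZero (wilesLevel p t Smin (Smin ∪ Finset.univ.image qv))]
    (PQ : HeckePkg p 𝒪 ρbar t Smin (Smin ∪ Finset.univ.image qv))
    (hM : bLevel (wilesLevel p t Smin Smin) qv ≠ 0) {α : Fin r → 𝒪}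
    {V : Submodule 𝒪 (XQ p t Smin qv 𝒪)} (hV : IsQPart PQ α V) :
    ∀ v ∈ V, IsCuspidalK v :=
  locPart_cuspidalK h PQ hM (le_refl _) hV

/-- The localisation at the level `Q` consists of parabolic classes. -/
theorem qPart_parabolic (h : ResidualHyp p 𝒪 ρbar Smin) {r : ℕ} {qv : Fin r → ℕ}
    [NeZero (wilesLevel p t Smin (Smin ∪ Finset.univ.image qv))]
    (PQ : HeckePkg p 𝒪 ρbar t Smin (Smin ∪ Finset.univ.image qv))
    (hM : bLevel (wilesLevel p t Smin Smin) qv ≠ 0) {α : Fin r → 𝒪}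
    {V : Submodule 𝒪 (XQ p t Smin qv 𝒪)} (hV : IsQPart PQ α V) :
    ∀ v ∈ V, IsParabolicHom (KQ p (wilesLevel p t Smin Smin) qv) v :=
  fun v hv => (qPart_cuspidalK h PQ hM hV v hv).1

/-- **Leaf CUSP-MIN** (helper959's statement). -/
theorem cuspMin : H959.CuspMinStatement :=
  fun _ _ _ _ _ _ _ _ _ _ _ h _ _ _ P₀ _ hV₀ v hv => minPart_cuspidalK h P₀ hV₀ v hv

/-- **CUSP at the minimal level, parabolic form** (helper709's statement). -/
theorem mod0Cusp : H709.Mod0CuspStatement :=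
  fun _ _ _ _ _ _ _ _ _ _ _ h _ _ _ P₀ _ hV₀ v hv => (minPart_cuspidalK h P₀ hV₀ v hv).1

/-- **Leaf MOD0 of layer 3 is closed.** -/
theorem mod0 : Mod0Statement := H709.mod0_of_cusp mod0Cusp

end Fermat.Agent.S59.TW.Aut.H511
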